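/-
GATE-E / GE-ENGINE-ASM, the P-LEVEL PLUG of the SO(a) base (helper11; helper10 board 7958): **the
body of `StepPlugSO.BaseSOaStmt` at a bundle** — strict-ordinary problem, `p ∥ M`, `W` semistable,
multiplicative at `p` and NOT residually modular of level `M / p` — twin of helper64's
`BaseFL.baseFL_of_node`, WITHOUT the binder `hfullsys`:

* E6: `Wire.e6_SO` (`NodeStmt` at the module of record `L := LTP P`, `eL := BaseTPkg.exists_eLP`),
  `hbar := Deside.BaseOdd.hbar_condSO_noSide` (Tate curve, no side condition);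
* `GE6/Stmt.minRT_of_twLevelsStmt` (`L` free over `Tloc`);
* the full eigensystem: `FullLamSOa.exists_full_lam_SOa`; its only input, ONE nonzero anemic
  `χ`-eigenvector of `P.O ⊗ Lam M`, is `x₀ • e₀` (`x₀` a generator of `Ann (ker πO)`, `e₀` an element
  of a `Tloc`-basis of `L`) at ONE instance `(D, H, φ, πO)` (`Deside.BaseOddFinal`, the frozen S54);
* ETA: `Primary.primary_fields_locSub`.

Binder left: `hnode` (`NodeStmt` for `condSO` and every `eL` compatible with the Hecke operators).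

* `free_of_node_SO` : E6 at a bundle, `Module.Free (Tloc P.O P.theta) (LTP P)`;
* `exists_anemic_of_free` : a nonzero anemic `χ`-eigenvector;
* `exists_full_lam_SOa_div` : `FullLamSOa.exists_full_lam_SOa` at a level `M` with `p ∣ M`;
* `baseInput_of_node_SO` : one `BaseInput p D φ πO 2` with `#CongMod = omegaCard M P.O lam`, and
  `EtaStage M P.O lam 2`;
* **`baseSOa_of_node`** : the body of `BaseSOaStmt` at `(P, χ)`.
-/
import Mathlib
import Fermat.Agent.GE8.P3B.GE.Engine.BaseFL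
import Fermat.Agent.GE.Engine.FullLamSOa
import Fermat.Agent.GE8.Deside.BaseOddFinal
import Fermat.Agent.GE8.P3B.StepGen
import Fermat.Agent.GE8.P3B.Ok3W

/- TWIN (helper6 B4 generator; conventions of helper24 / helper86) of `Fermat.Agent.GE.Engine.BaseSOa` with `p ≠ 3` relaxed to `Ok3A Sy 𝔪 p` / `Ok3W p W` (RISK-5 fix (B), step B4); everything below lives in the wrapper namespace `Fermat.Agent.GE8.P3B`. -/
set_option linter.dupNamespace false
open Fermat Fermat.Agent Fermat.Agent.GB Fermat.Agent.GB.B4 Fermat.Agent.GB.B4.Datum Fermat.Agent.GB.B4.Datum.Carrier Fermat.Agent.GB.B4.Datum.HeckeCarrier Fermat.Agent.GB.Setup Fermat.Agent.GB.Setup.RhoBar Fermat.Agent.GB.Setup.SetupPkg Fermat.Agent.GE Fermat.Agent.GE.Engine Fermat.Agent.GE.Engine.FullLamSOa Fermat.Agent.GE.Graph Fermat.Agent.GE6 Fermat.Agent.GE6.Inst Fermat.Agent.GE6.Inst.BaseTLoc Fermat.Agent.GE9 Fermat.Agent.GE9.Asm Fermat.Agent.GE9.Eta Fermat.Agent.GE9.Eta.Base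 Fermat.Agent.GE9.Eta.Base.Primary Fermat.Agent.GE9.Eta.Mod Fermat.Agent.GE9.Ind Fermat.Agent.GE9.NumCrit Fermat.Agent.GE9.NumCrit.ModForm Fermat.Agent.GJ Fermat.Agent.GJ.J2 Fermat.Agent.GJ.J2.Lat

namespace Fermat.Agent.GE8.P3B

set_option autoImplicit false
set_option linter.unusedSectionVars false
set_option linter.unusedVariables false
set_option linter.style.haveILetI false

open scoped TensorProduct
open WeierstrassCurve WeierstrassCurve.Affine.Point IsLocalRing CuspForm Polynomial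
open scoped WeierstrassCurve.Affine

namespace GE.Engine.BaseSOa

open GB.Setup.RhoBar GB.Setup.SetupPkg
  GB.B4.Datum.Carrier GB.B4.Datum.HeckeCarrier
  GE.Graph GE9.Ind GE9.NumCrit
  GE9.NumCrit.ModForm GE9.Asm
open GJ.J2.Lat
open GE9.Eta GE9.Eta.Mod GE9.Eta.Base
  GE9.Eta.Base.Primary
open GE6.Inst.FreeLevelInst GE6.Inst.Wire
  GE6.Inst.BaseTLoc GE6.Inst.BaseTPkg
open GE.Engine GE.Engine.BaseFL GE.Engine.FullLamSOa

variable {p : ℕ} [hpF : Fact p.Prime] {W : WeierstrassCurve ℤ}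
  {hcard₁ : Nat.card (Submodule.torsionBy ℤ
    ((W.map (Int.castRingHom ℚ))⁄(AlgebraicClosure ℚ)).Point p) = p ^ 2}
  {hker : GaloisFactorsThroughFiniteLevel
    (galoisRepModuleEnd (K := AlgebraicClosure ℚ) ℚ (W.map (Int.castRingHom ℚ)) p)}
  {M A : ℕ} (P : Pkg p W hcard₁ hker M A) [NeZero M]

/-- **E6 at a bundle, strict-ordinary problem**: the Taylor–Wiles data of every depth and the
freeness of the module of record over `Tloc`. -/
theorem free_of_node_SO (hss : W.IsSemistableModel) (hmult : (p : ℤ) ∣ W.Δ) (hsq : Squarefree M)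
    (hp3 : Ok3W p W)
    (D : GaloisRep.DeformationRingData P.O P.rhobar (condSO P.O p P.Smin ∅))
    (φ : D.R →ₐ[P.O] Tloc P.O P.theta) (hφ : Function.Surjective φ)
    (hnode : ∀ eL : Mbase P ≃ₗ[P.O] LTP P,
      (∀ (s : I0 W p M) (y : Mbase P),
        eL (actBase P (MvPolynomial.X s) y)
          = piT P.O P.theta (heckeAlgebra.T s.2.1 s.2.2.2.1 (pr0_notMem_S0 P s)) • eL y) →
      NodeStmt P hp3 (condSO P.O p P.Smin) D φ (LTP P) eL) :
    GE6.Stmt.TWLevelsStmt p D φ (LTP P) ∧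
      Module.Free (Tloc P.O P.theta) (LTP P) := by
  have hp : p.Prime := Fact.out
  obtain ⟨eL, -, -, heX⟩ := exists_eLP P hsq
  have htw : GE6.Stmt.TWLevelsStmt p D φ (LTP P) :=
    e6_SO P hp3 D φ (LTP P) eL
      (GE8.Deside.BaseOdd.hbar_condSO_noSide P hss hmult hsq ∅) (hnode eL heX)
  haveI hnt : Nontrivial (LTP P) := nontrivial_LT
  obtain ⟨-, -, hfree, -⟩ := GE6.Stmt.minRT_of_twLevelsStmt hp P.hpO D φ hφ htw
  exact ⟨htw, hfree⟩

/-- **a nonzero anemic `χ`-eigenvector** of `P.O ⊗ Lam M` from the freeness of the module of record: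
`x₀ • e₀`, `x₀` a generator of `Ann (ker πO)`, `e₀` an element of a `Tloc`-basis. -/
theorem exists_anemic_of_free (hfree : Module.Free (Tloc P.O P.theta) (LTP P))
    (χ : heckeAlgebra M 2 (↑P.S0 : Set ℕ) →+* P.O)
    (πO : Tloc P.O P.theta →ₐ[P.O] P.O)
    (hπO : ∀ t : heckeAlgebra M 2 (↑P.S0 : Set ℕ), πO (piT P.O P.theta t) = χ t) :
    ∃ y : P.O ⊗[ℤ] Lam M, y ≠ 0 ∧
      ∀ l : Nat.Primes, ¬ (l : ℕ) ∣ M → (l : ℕ) ∉ (↑P.S0 : Set ℕ) →
        (latT M l).baseChange P.O y = lamP χ l • y := by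
  haveI : Module.Free (Tloc P.O P.theta) (LTP P) := hfree
  haveI hnt : Nontrivial (LTP P) := nontrivial_LT
  haveI : IsReduced (Tloc P.O P.theta) :=
    GB.Glue.DatumOfRhobar.isReduced_Tloc M P.S0 P.O P.theta
      (GE8.MinDatum.hNS0 P)
  have hη : etaIdeal πO ≠ ⊥ := etaIdeal_ne_bot_of_finite πO
  haveI : NoZeroSMulDivisors P.O (Tloc P.O P.theta) :=
    noZeroSMulDivisors_of_free P.O (Tloc P.O P.theta)
  haveI : Module.Finite P.O (LTP P) := finite_LT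
  haveI : Module.Finite (Tloc P.O P.theta) (LTP P) :=
    Module.Finite.of_restrictScalars_finite P.O (Tloc P.O P.theta) (LTP P)
  obtain ⟨k, ⟨e⟩⟩ : ∃ k : ℕ,
      Nonempty (LTP P ≃ₗ[Tloc P.O P.theta] (Fin k → Tloc P.O P.theta)) :=
    ⟨_, ⟨(Module.finBasis (Tloc P.O P.theta) (LTP P)).equivFun⟩⟩
  have hk : 0 < k := by
    rcases Nat.eq_zero_or_pos k with h | h
    · subst h
      exact absurd e.toEquiv.subsingleton (not_subsingleton (LTP P))
    · exact h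
  obtain ⟨x₀, hπx₀, hgen⟩ := annGen_of_eta_ne_bot πO hη
  have hmem : singleFam e x₀ ⟨0, hk⟩ ∈ torP πO (LTP P) := singleFam_mem_torP hgen e _
  have hne : singleFam e x₀ ⟨0, hk⟩ ≠ 0 := (linearIndependent_singleFam e hπx₀).ne_zero _
  refine ⟨((singleFam e x₀ ⟨0, hk⟩ : LTP P) : P.O ⊗[ℤ] Lam M), fun h => hne (Subtype.ext h),
    fun l hlM hlS => ?_⟩
  have h1 := coe_piT_T_smul (θ := P.theta) l.2 hlM hlS (singleFam e x₀ ⟨0, hk⟩)
  rw [smul_eq_of_mem_torP πO hmem, hπO] at h1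
  have h2 : lamP χ l = χ (heckeAlgebra.T l.2 hlM hlS) := lamP_eq χ l.2 hlM hlS
  rw [h2]
  exact h1.symm

/-- `FullLamSOa.exists_full_lam_SOa` at a level `M` with `p ∣ M`. -/
theorem exists_full_lam_SOa_div (hpM : p ∣ M) (hsq : Squarefree M) (hSu : P.Su = ∅)
    (hno : ¬ W.IsResiduallyModularOfLevel p (M / p))
    (χ : heckeAlgebra M 2 (↑P.S0 : Set ℕ) →+* P.O)
    (hχ : ∀ t : heckeAlgebra M 2 (↑P.S0 : Set ℕ), residue P.O (χ t) = P.theta t)
    (y : P.O ⊗[ℤ] Lam M) (hy0 : y ≠ 0)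
    (hy : ∀ l : Nat.Primes, ¬ (l : ℕ) ∣ M → (l : ℕ) ∉ (↑P.S0 : Set ℕ) →
      (latT M l).baseChange P.O y = lamP χ l • y) :
    ∃ lam : Nat.Primes → P.O,
      (∀ (ℓ : ℕ) (hℓ : ℓ.Prime) (hℓM : ¬ ℓ ∣ M) (hℓS : ℓ ∉ (↑P.S0 : Set ℕ)),
        χ (heckeAlgebra.T hℓ hℓM hℓS) = lam (⟨ℓ, hℓ⟩ : Nat.Primes)) ∧
      FullSys P lam ∧ lam (⟨p, Fact.out⟩ : Nat.Primes) ^ 2 = 1 := by
  have hp : p.Prime := Fact.out
  obtain ⟨M₀, rfl⟩ : ∃ M₀, M = M₀ * p := ⟨M / p, (Nat.div_mul_cancel hpM).symm⟩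
  haveI : NeZero M₀ := ⟨fun h => NeZero.ne (M₀ * p) (by rw [h, zero_mul])⟩
  have hpM₀ : ¬ p ∣ M₀ := by
    have h := GE8.MinDatum.not_dvd_div_of_squarefree hpM hsq
    rwa [Nat.mul_div_cancel M₀ hp.pos] at h
  rw [Nat.mul_div_cancel M₀ hp.pos] at hno
  exact exists_full_lam_SOa P hpM₀ hsq hSu hno χ hχ y hy0 hy

/-- **the base record of the SO(a) engine at a bundle**, for one `(D, φ, πO)`. -/
theorem baseInput_of_node_SO (hss : W.IsSemistableModel) (hmult : (p : ℤ) ∣ W.Δ)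
    (hsq : Squarefree M) (hp3 : Ok3W p W)
    (χ : heckeAlgebra M 2 (↑P.S0 : Set ℕ) →+* P.O) (lam : Nat.Primes → P.O)
    (hlamχ : ∀ (ℓ : ℕ) (hℓ : ℓ.Prime) (hℓM : ¬ ℓ ∣ M) (hℓS : ℓ ∉ (↑P.S0 : Set ℕ)),
      χ (heckeAlgebra.T hℓ hℓM hℓS) = lam (⟨ℓ, hℓ⟩ : Nat.Primes))
    (hfull : FullSys P lam)
    (D : GaloisRep.DeformationRingData P.O P.rhobar (condSO P.O p P.Smin ∅))
    (φ : D.R →ₐ[P.O] Tloc P.O P.theta) (hφ : Function.Surjective φ)
    (πO : Tloc P.O P.theta →ₐ[P.O] P.O)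
    (hπO : ∀ t : heckeAlgebra M 2 (↑P.S0 : Set ℕ), πO (piT P.O P.theta t) = χ t)
    (hnode : ∀ eL : Mbase P ≃ₗ[P.O] LTP P,
      (∀ (s : I0 W p M) (y : Mbase P),
        eL (actBase P (MvPolynomial.X s) y)
          = piT P.O P.theta (heckeAlgebra.T s.2.1 s.2.2.2.1 (pr0_notMem_S0 P s)) • eL y) →
      NodeStmt P hp3 (condSO P.O p P.Smin) D φ (LTP P) eL) :
    ∃ I : BaseInput p D φ πO 2,
      Nat.card (CongMod I.B (Submodule.span P.O (Set.range I.b))) = omegaCard M P.O lam ∧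
      EtaStage M P.O lam 2 := by
  have hp : p.Prime := Fact.out
  -- E6
  obtain ⟨htw, hfree⟩ := free_of_node_SO P hss hmult hsq hp3 D φ hφ hnode
  haveI hnt : Nontrivial (LTP P) := nontrivial_LT
  -- `η ≠ 0`
  haveI : IsReduced (Tloc P.O P.theta) :=
    GB.Glue.DatumOfRhobar.isReduced_Tloc M P.S0 P.O P.theta
      (GE8.MinDatum.hNS0 P)
  have hη : etaIdeal πO ≠ ⊥ := etaIdeal_ne_bot_of_finite πO
  haveI : NoZeroSMulDivisors P.O (Tloc P.O P.theta) :=
    noZeroSMulDivisors_of_free P.O (Tloc P.O P.theta)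
  -- ETA
  have hlam : ∀ (ℓ : ℕ) (hℓ : ℓ.Prime) (hℓM : ¬ ℓ ∣ M) (hℓS : ℓ ∉ (↑P.S0 : Set ℕ)),
      πO (piT P.O P.theta (heckeAlgebra.T hℓ hℓM hℓS)) = lam ⟨ℓ, hℓ⟩ := fun ℓ hℓ hℓM hℓS => by
    rw [hπO, hlamχ]
  obtain ⟨hadj, hnd, b, hli, hspan, hcard, -, hstage⟩ :=
    primary_fields_locSub (O := P.O) (M := M) (S := (↑P.S0 : Set ℕ)) P.theta P.hMS0 hfree hnt πO hη
      lam hlam hfull
  exact ⟨{ L := LTP P
           htw := htw
           B := pullBW (GB.B8.LevelStage.locSub (tA P.O M (↑P.S0 : Set ℕ))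
             (maxθ P.O P.theta)).subtype
           hadj := hadj
           hnd := hnd
           b := b
           hli := hli
           hspan := hspan }, hcard, hstage⟩

/-- **the body of `BaseSOaStmt` at a bundle**: a full eigensystem `lam` extending `χ` with
`lam p ^ 2 = 1`, the base of the module-side induction `EtaStage M P.O lam 2`, and the base record
for EVERY `(D, H, φ, πO)` of the strict-ordinary problem. -/
theorem baseSOa_of_node (hpM : p ∣ M) (hsq : Squarefree M) (hSu : P.Su = ∅)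
    (hss : W.IsSemistableModel) (hmult : (p : ℤ) ∣ W.Δ)
    (hno : ¬ W.IsResiduallyModularOfLevel p (M / p)) (hp3 : Ok3W p W)
    (χ : heckeAlgebra M 2 (↑P.S0 : Set ℕ) →+* P.O)
    (hχ : ∀ t : heckeAlgebra M 2 (↑P.S0 : Set ℕ), residue P.O (χ t) = P.theta t)
    (hnode : ∀ (D : GaloisRep.DeformationRingData P.O P.rhobar (condSO P.O p P.Smin ∅))
      (φ : D.R →ₐ[P.O] Tloc P.O P.theta) (eL : Mbase P ≃ₗ[P.O] LTP P),
      Function.Surjective φ →
      (∀ (s : I0 W p M) (y : Mbase P),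
        eL (actBase P (MvPolynomial.X s) y)
          = piT P.O P.theta (heckeAlgebra.T s.2.1 s.2.2.2.1 (pr0_notMem_S0 P s)) • eL y) →
      NodeStmt P hp3 (condSO P.O p P.Smin) D φ (LTP P) eL) :
    ∃ lam : Nat.Primes → P.O,
      (∀ (ℓ : ℕ) (hℓ : ℓ.Prime) (hℓM : ¬ ℓ ∣ M) (hℓS : ℓ ∉ (↑P.S0 : Set ℕ)),
        χ (heckeAlgebra.T hℓ hℓM hℓS) = lam (⟨ℓ, hℓ⟩ : Nat.Primes)) ∧
      lam (⟨p, Fact.out⟩ : Nat.Primes) ^ 2 = 1 ∧
      EtaStage M P.O lam 2 ∧
      ∀ (D : GaloisRep.DeformationRingData P.O P.rhobar (condSO P.O p P.Smin ∅))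
        (H : HeckeGaloisRepDatum M (↑P.S0 : Set ℕ) P.O P.theta (Tloc P.O P.theta))
        (hπ : H.π = piT P.O P.theta)
        (φ : D.R →ₐ[P.O] Tloc P.O P.theta) (hφ : Function.Surjective φ)
        (hloc : IsLocalHom (φ : D.R →+* Tloc P.O P.theta))
        (hρ : (D.ρ.baseChangeAlong (φ : D.R →+* Tloc P.O P.theta) hloc).IsEquiv H.ρ)
        (πO : Tloc P.O P.theta →ₐ[P.O] P.O)
        (hπO : ∀ t : heckeAlgebra M 2 (↑P.S0 : Set ℕ), πO (piT P.O P.theta t) = χ t),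
        ∃ I : BaseInput p D φ πO 2,
          Nat.card (CongMod I.B (Submodule.span P.O (Set.range I.b))) = omegaCard M P.O lam := by
  -- ONE instance `(D, H, φ, πO)` as in `Deside.BaseOdd.exists_base_SO_noSide`
  obtain ⟨H, hπ, hc, hres⟩ :=
    GE8.Deside.BaseOddFinal.exists_minDatum_SO_pnew_odd P hpM hsq hSu
      (GE8.Deside.BaseOdd.hordbar_of_mult P.hΔ hss hmult) hno
  have h𝒟 : condSO P.O p P.Smin ∅ H.ρ := by
    refine (GE8.MinDatum.condSO_iff P ∅ H.ρ).mpr ?_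
    rw [Finset.union_empty]
    exact hc
  obtain ⟨D⟩ := GE6.DefRing.nonempty_defRing_SO p P.rhobar P.hp2 P.habs P.Smin ∅
    P.p_mem_Smin P.hmin (GE8.Deside.BaseOdd.hbar_condSO_noSide P hss hmult hsq ∅)
  obtain ⟨φ, hsurj, hloc, hρ⟩ := GE8.MinDatum.surjective_to_hecke P D H h𝒟 hres
  obtain ⟨πO, hψ⟩ := H.exists_point χ hχ
  have hπO : ∀ t : heckeAlgebra M 2 (↑P.S0 : Set ℕ), πO (piT P.O P.theta t) = χ t := by
    intro t
    rw [← hπ]
    exact hψ t
  -- a nonzero anemic eigenvector, the full eigensystem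
  obtain ⟨-, hfree⟩ := free_of_node_SO P hss hmult hsq hp3 D φ hsurj
    (fun eL heL => hnode D φ eL hsurj heL)
  obtain ⟨y, hy0, hy⟩ := exists_anemic_of_free P hfree χ πO hπO
  obtain ⟨lam, hlamχ, hfull, hlamp⟩ := exists_full_lam_SOa_div P hpM hsq hSu hno χ hχ y hy0 hy
  refine ⟨lam, hlamχ, hlamp, ?_, fun D' H' hπ' φ' hφ' hloc' hρ' πO' hπO' => ?_⟩
  · obtain ⟨I, -, hst⟩ := baseInput_of_node_SO P hss hmult hsq hp3 χ lam hlamχ hfull D φ hsurj πO
      hπO (fun eL heL => hnode D φ eL hsurj heL)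
    exact hst
  · obtain ⟨I, hI, -⟩ := baseInput_of_node_SO P hss hmult hsq hp3 χ lam hlamχ hfull D' φ' hφ' πO'
      hπO' (fun eL heL => hnode D' φ' eL hφ' heL)
    exact ⟨I, hI⟩

end GE.Engine.BaseSOa

end Fermat.Agent.GE8.P3B
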