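/-
GATE-E / RISK-5 (B4) + GE-ENGINE-ASM, SO(a) BASE (helper11): **`StepPlugSO.BaseSOaStmt p` and
`MinHeckeSOa p` from the twin E6 node statement for `condSO`, EVERY odd `p` (`p = 3` included)** — the
one-line closure of the hand twin `GE8/P3B/GE/Engine/SOaPlug.baseSOa_of_nodeStmt` against
helper73/helper10's `BaseSOaStmt` (`StepPlugSO`, e8d0c7ed) and helper10's
`NewLocPlug.minHeckeSOa_of_stage` (both cone-free: no twin of them exists or is needed).

* **`baseSOaStmt_of_node`** : `NodeSOaStmt p → BaseSOaStmt p`;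
* **`minHeckeSOa_of_node`** :
  `p ≠ 2 → TransvStmt p → NodeSOaStmt p → StageNotResStmt p → MinHeckeSOa p`.
-/
import Mathlib
import Fermat.Agent.GE8.P3B.GE.Engine.SOaPlug
import Fermat.Agent.GE.Engine.NewLocPlug

set_option autoImplicit false
set_option linter.dupNamespace false

namespace Fermat.Agent.GE8.P3B

namespace GE.Engine.SOaPlug

/-- **the base of the SO(a) engine from the twin E6 node statement** (every odd `p`). -/
theorem baseSOaStmt_of_node (p : ℕ) [hpF : Fact p.Prime] (h : NodeSOaStmt p) :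
    Fermat.Agent.GE.Engine.BaseSOaStmt p :=
  baseSOa_of_nodeStmt p h

/-- **`MinHeckeSOa p`** (every odd `p`) from IRR2, the twin E6 node statement for `condSO` and the
stage non-occurrence (nodes SQ, SQ3, LLQ). -/
theorem minHeckeSOa_of_node (p : ℕ) [hpF : Fact p.Prime] (hp2 : p ≠ 2)
    (hTr : Fermat.Agent.GE.Engine.TransvStmt p) (h : NodeSOaStmt p)
    (hst : Fermat.Agent.GE.Engine.StageNotResStmt p) : Fermat.Agent.GE.Engine.MinHeckeSOa p :=
  Fermat.Agent.GE.Engine.minHeckeSOa_of_stage p hp2 hTr (baseSOaStmt_of_node p h) hst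

end GE.Engine.SOaPlug

end Fermat.Agent.GE8.P3B
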