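/-
GATE-E / GE-ENGINE-ASM, the P-LEVEL PLUG of the flat base (helper64; helper2 board 7817, helper54
board 7802): **the `hin` supplier of `Base.exists_base_FL` = the body of `StepPlug.BaseFLStmt` at a
bundle**, from

* E6: `Wire.e6_FL` (`NodeStmt` at the module of record `L := LTP P`, `eL := BaseTPkg.exists_eLP`),
* `GE6/Stmt.minRT_of_twLevelsStmt` (`L` free over `Tloc`),
* ETA: `Primary.primary_fields_locSub` (pairing, basis of `L[𝔭]`, `#Ω = omegaCard`, `EtaStage`),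
* `BaseTLoc` (the `Tloc`-module structure of record on `LTP P`, nontriviality).

Binders left: `hnode` (helper72's N8b `NodeProof`: `NodeStmt` for every `eL` compatible with the
Hecke operators) and the full eigensystem `(lam, hlamχ, hfull)` (helper63 `Consumer.exists_full_system`
/ helper2 `PrimaryType`).

* `FullSys P lam` : the `hfull` binder of `primary_fields_locSub`;
* `baseInput_of_node` : one `BaseInput p D φ πO 2` with `#CongMod = omegaCard M P.O lam`, and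
  `EtaStage M P.O lam 2`;
* `baseFL_of_node` : the body of `BaseFLStmt` at `(P, χ)`.
-/
import Mathlib
import Fermat.Agent.GE.Engine.Base
import Fermat.Agent.GE8.P3B.GE6.Inst.Wire
import Fermat.Agent.GE8.P3B.GE6.Inst.BaseTPkg
import Fermat.Agent.GE9.Eta.Base.Primary
import Fermat.Agent.GE8.P3B.StepGen
import Fermat.Agent.GE8.P3B.Ok3W

/- TWIN (helper6 B4 generator; conventions of helper24 / helper86) of `Fermat.Agent.GE.Engine.BaseFL` with `p ≠ 3` relaxed to `Ok3A Sy 𝔪 p` / `Ok3W p W` (RISK-5 fix (B), step B4); everything below lives in the wrapper namespace `Fermat.Agent.GE8.P3B`. -/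
set_option linter.dupNamespace false
open Fermat Fermat.Agent Fermat.Agent.GB Fermat.Agent.GB.B4 Fermat.Agent.GB.B4.Datum Fermat.Agent.GB.B4.Datum.Carrier Fermat.Agent.GB.B4.Datum.HeckeCarrier Fermat.Agent.GB.Setup Fermat.Agent.GB.Setup.RhoBar Fermat.Agent.GB.Setup.SetupPkg Fermat.Agent.GE Fermat.Agent.GE.Engine Fermat.Agent.GE.Graph Fermat.Agent.GE6 Fermat.Agent.GE6.Inst Fermat.Agent.GE6.Inst.BaseTLoc Fermat.Agent.GE9 Fermat.Agent.GE9.Asm Fermat.Agent.GE9.Eta Fermat.Agent.GE9.Eta.Base Fermat.Agent.GE9.Eta.Base.Primary Fermat.Agent.GE9.Eta.Mod Fermat.Agent.GE9.Ind Fermat.Agent.GE9.NumCrit Fermat.Agent.GE9.NumCrit.ModForm Fermat.Agent.GJ Fermat.Agent.GJ.J2 Fermat.Agent.GJ.J2.Lat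

namespace Fermat.Agent.GE8.P3B

set_option autoImplicit false
set_option linter.unusedSectionVars false
set_option linter.unusedVariables false
set_option linter.style.haveILetI false

open scoped TensorProduct
open WeierstrassCurve WeierstrassCurve.Affine.Point IsLocalRing CuspForm Polynomial
open scoped WeierstrassCurve.Affine

namespace GE.Engine.BaseFL

open GB.Setup.RhoBar GB.Setup.SetupPkg
  GB.B4.Datum.Carrier GB.B4.Datum.HeckeCarrier
  GE.Graph GE9.Ind GE9.NumCrit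
  GE9.NumCrit.ModForm GE9.Asm
open GJ.J2.Lat
open GE9.Eta GE9.Eta.Mod GE9.Eta.Base
  GE9.Eta.Base.Primary
open GE6.Inst.FreeLevelInst GE6.Inst.Wire
  GE6.Inst.BaseTLoc GE6.Inst.BaseTPkg
open GE.Engine

variable {p : ℕ} [hpF : Fact p.Prime] {W : WeierstrassCurve ℤ}
  {hcard₁ : Nat.card (Submodule.torsionBy ℤ
    ((W.map (Int.castRingHom ℚ))⁄(AlgebraicClosure ℚ)).Point p) = p ^ 2}
  {hker : GaloisFactorsThroughFiniteLevel
    (galoisRepModuleEnd (K := AlgebraicClosure ℚ) ℚ (W.map (Int.castRingHom ℚ)) p)}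
  {M A : ℕ} (P : Pkg p W hcard₁ hker M A) [NeZero M]

/-- **the full eigensystem clause** (`hfull` of `Primary.primary_fields_locSub`): on `P.O ⊗ Lam M` an
eigenvector of the good Hecke operators with eigenvalues `lam` is an eigenvector of ALL the lattice
Hecke operators with eigenvalues `lam`. -/
def FullSys (lam : Nat.Primes → P.O) : Prop :=
  ∀ x : P.O ⊗[ℤ] Lam M,
    (∀ l : Nat.Primes, ¬ (l : ℕ) ∣ M → (l : ℕ) ∉ (↑P.S0 : Set ℕ) →
      (latT M l).baseChange P.O x = lam l • x) →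
    ∀ l : Nat.Primes, (latT M l).baseChange P.O x = lam l • x

/-- **the base record of the flat engine at a bundle**, for one `(D, φ, πO)`. -/
theorem baseInput_of_node (hpM : ¬ p ∣ M) (hsq : Squarefree M) (hp3 : Ok3W p W)
    (χ : heckeAlgebra M 2 (↑P.S0 : Set ℕ) →+* P.O) (lam : Nat.Primes → P.O)
    (hlamχ : ∀ (ℓ : ℕ) (hℓ : ℓ.Prime) (hℓM : ¬ ℓ ∣ M) (hℓS : ℓ ∉ (↑P.S0 : Set ℕ)),
      χ (heckeAlgebra.T hℓ hℓM hℓS) = lam (⟨ℓ, hℓ⟩ : Nat.Primes))
    (hfull : FullSys P lam)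
    (D : GaloisRep.DeformationRingData P.O P.rhobar (condFL P.O p P.Smin ∅))
    (φ : D.R →ₐ[P.O] Tloc P.O P.theta) (hφ : Function.Surjective φ)
    (πO : Tloc P.O P.theta →ₐ[P.O] P.O)
    (hπO : ∀ t : heckeAlgebra M 2 (↑P.S0 : Set ℕ), πO (piT P.O P.theta t) = χ t)
    (hnode : ∀ eL : Mbase P ≃ₗ[P.O] LTP P,
      (∀ (s : I0 W p M) (y : Mbase P),
        eL (actBase P (MvPolynomial.X s) y)
          = piT P.O P.theta (heckeAlgebra.T s.2.1 s.2.2.2.1 (pr0_notMem_S0 P s)) • eL y) →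
      NodeStmt P hp3 (condFL P.O p P.Smin) D φ (LTP P) eL) :
    ∃ I : BaseInput p D φ πO 2,
      Nat.card (CongMod I.B (Submodule.span P.O (Set.range I.b))) = omegaCard M P.O lam ∧
      EtaStage M P.O lam 2 := by
  have hp : p.Prime := Fact.out
  -- the equivalence `Mbase P ≃ LTP P`
  obtain ⟨eL, -, -, heX⟩ := exists_eLP P hsq
  -- E6
  have htw : GE6.Stmt.TWLevelsStmt p D φ (LTP P) :=
    e6_FL P hp3 D φ (LTP P) eL (GE8.MinDatum.hbar_condFL P hpM hsq ∅) (hnode eL heX)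
  haveI hnt : Nontrivial (LTP P) := nontrivial_LT
  obtain ⟨-, -, hfree, -⟩ := GE6.Stmt.minRT_of_twLevelsStmt hp P.hpO D φ hφ htw
  -- `η ≠ 0`
  haveI : IsReduced (Tloc P.O P.theta) :=
    GB.Glue.DatumOfRhobar.isReduced_Tloc M P.S0 P.O P.theta
      (GE8.MinDatum.hNS0 P)
  have hη : etaIdeal πO ≠ ⊥ := etaIdeal_ne_bot_of_finite πO
  haveI : NoZeroSMulDivisors P.O (Tloc P.O P.theta) :=
    noZeroSMulDivisors_of_free P.O (Tloc P.O P.theta)
  -- ETA
  have hlam : ∀ (ℓ : ℕ) (hℓ : ℓ.Prime) (hℓM : ¬ ℓ ∣ M) (hℓS : ℓ ∉ (↑P.S0 : Set ℕ)),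
      πO (piT P.O P.theta (heckeAlgebra.T hℓ hℓM hℓS)) = lam ⟨ℓ, hℓ⟩ := fun ℓ hℓ hℓM hℓS => by
    rw [hπO, hlamχ]
  obtain ⟨hadj, hnd, b, hli, hspan, hcard, -, hstage⟩ :=
    primary_fields_locSub (O := P.O) (M := M) (S := (↑P.S0 : Set ℕ)) P.theta P.hMS0 hfree hnt πO hη
      lam hlam hfull
  exact ⟨{ L := LTP P
           htw := htw
           B := pullBW (GB.B8.LevelStage.locSub (tA P.O M (↑P.S0 : Set ℕ))
             (maxθ P.O P.theta)).subtype
           hadj := hadj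
           hnd := hnd
           b := b
           hli := hli
           hspan := hspan }, hcard, hstage⟩

/-- **the body of `BaseFLStmt` at a bundle**: a full eigensystem `lam` extending `χ`, the base of the
module-side induction `EtaStage M P.O lam 2`, and the base record for EVERY `(D, H, φ, πO)`. -/
theorem baseFL_of_node (hpM : ¬ p ∣ M) (hsq : Squarefree M) (hSu : P.Su = ∅) (hp3 : Ok3W p W)
    (χ : heckeAlgebra M 2 (↑P.S0 : Set ℕ) →+* P.O)
    (hχ : ∀ t : heckeAlgebra M 2 (↑P.S0 : Set ℕ), residue P.O (χ t) = P.theta t)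
    (hfullsys : ∃ lam : Nat.Primes → P.O,
      (∀ (ℓ : ℕ) (hℓ : ℓ.Prime) (hℓM : ¬ ℓ ∣ M) (hℓS : ℓ ∉ (↑P.S0 : Set ℕ)),
        χ (heckeAlgebra.T hℓ hℓM hℓS) = lam (⟨ℓ, hℓ⟩ : Nat.Primes)) ∧ FullSys P lam)
    (hnode : ∀ (D : GaloisRep.DeformationRingData P.O P.rhobar (condFL P.O p P.Smin ∅))
      (φ : D.R →ₐ[P.O] Tloc P.O P.theta) (eL : Mbase P ≃ₗ[P.O] LTP P),
      Function.Surjective φ →
      (∀ (s : I0 W p M) (y : Mbase P),
        eL (actBase P (MvPolynomial.X s) y)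
          = piT P.O P.theta (heckeAlgebra.T s.2.1 s.2.2.2.1 (pr0_notMem_S0 P s)) • eL y) →
      NodeStmt P hp3 (condFL P.O p P.Smin) D φ (LTP P) eL) :
    ∃ lam : Nat.Primes → P.O,
      (∀ (ℓ : ℕ) (hℓ : ℓ.Prime) (hℓM : ¬ ℓ ∣ M) (hℓS : ℓ ∉ (↑P.S0 : Set ℕ)),
        χ (heckeAlgebra.T hℓ hℓM hℓS) = lam (⟨ℓ, hℓ⟩ : Nat.Primes)) ∧
      EtaStage M P.O lam 2 ∧
      ∀ (D : GaloisRep.DeformationRingData P.O P.rhobar (condFL P.O p P.Smin ∅))
        (H : HeckeGaloisRepDatum M (↑P.S0 : Set ℕ) P.O P.theta (Tloc P.O P.theta))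
        (hπ : H.π = piT P.O P.theta)
        (φ : D.R →ₐ[P.O] Tloc P.O P.theta) (hφ : Function.Surjective φ)
        (hloc : IsLocalHom (φ : D.R →+* Tloc P.O P.theta))
        (hρ : (D.ρ.baseChangeAlong (φ : D.R →+* Tloc P.O P.theta) hloc).IsEquiv H.ρ)
        (πO : Tloc P.O P.theta →ₐ[P.O] P.O)
        (hπO : ∀ t : heckeAlgebra M 2 (↑P.S0 : Set ℕ), πO (piT P.O P.theta t) = χ t),
        ∃ I : BaseInput p D φ πO 2,
          Nat.card (CongMod I.B (Submodule.span P.O (Set.range I.b))) = omegaCard M P.O lam := by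
  obtain ⟨lam, hlamχ, hfull⟩ := hfullsys
  refine ⟨lam, hlamχ, ?_, fun D H hπ φ hφ hloc hρ πO hπO => ?_⟩
  · -- one instance `(D, H, φ, πO)` as in `Base.exists_base_of_datum`
    obtain ⟨H, hπ, h𝒟, hres⟩ := GE8.MinDatum.exists_datum_condFL P hpM
      (fun q hqS _ => GE8.MinDatum.not_sq_dvd_of_squarefree hsq
        (P.prime_of_mem_Smin hqS)) ∅
      (fun q hq hqM => Finset.mem_union_left _
        (GE8.MinDatum.mem_Smin_of_dvd P hSu hq hqM))
    obtain ⟨D⟩ := GE6.DefRing.nonempty_defRing_FL p P.rhobar P.hp2 P.habs P.Smin ∅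
      P.p_mem_Smin P.hmin (GE8.MinDatum.hbar_condFL P hpM hsq ∅)
    obtain ⟨φ, hsurj, hloc, hρ⟩ := GE8.MinDatum.surjective_to_hecke P D H h𝒟 hres
    obtain ⟨πO, hψ⟩ := H.exists_point χ hχ
    have hπO : ∀ t : heckeAlgebra M 2 (↑P.S0 : Set ℕ), πO (piT P.O P.theta t) = χ t := by
      intro t
      rw [← hπ]
      exact hψ t
    obtain ⟨I, -, hst⟩ := baseInput_of_node P hpM hsq hp3 χ lam hlamχ hfull D φ hsurj πO hπO
      (fun eL heL => hnode D φ eL hsurj heL)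
    exact hst
  · obtain ⟨I, hI, -⟩ := baseInput_of_node P hpM hsq hp3 χ lam hlamχ hfull D φ hφ πO hπO
      (fun eL heL => hnode D φ eL hφ heL)
    exact ⟨I, hI⟩

end GE.Engine.BaseFL

end Fermat.Agent.GE8.P3B
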