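/-
GATE-E / RISK-5 (B4), HAND-WRITTEN TWIN (helper64) of `Fermat.Agent.GE.Engine.FLPlug` (helper54,
landed 18877c3f) over helper6's generated twin `Fermat.Agent.GE8.P3B.GE.Engine.BaseFL`:
**the flat Hecke side from E6's node statement alone, EVERY odd `p` (`p = 3` included)**.

NOT mechanical: the original `NodeFLStmt (p) (hp3 : p ≠ 3)` binds `hp3` BEFORE `W`, so the rule
`(hp3 : p ≠ 3) ↦ (hp3 : Ok3W p W)` does not parse there.  Here the binder is DROPPED and the node
statement is taken at `Ok3W.of_semistable hW` (`hW : W.IsSemistableModel` is among the binders of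
`BaseFLStmt`).

Everything is spelled with FULL names (no `open` of a cone namespace): the original cone modules are
in the import closure through `StepPlug` / `FullLam`? NO — both are cone-free (import-graph checked:
the cone of `GB.B3.StepInst` inside the closure of the original `FLPlug` is `BaseFL`, `FLPlug`,
`GE6/Inst/{BaseTPkg,FreeLevelInst,FreeLevelTw,Wire}`, `GE9/Eta/Base/LocBridgeBnd` + 19 `GB` modules),
but full names cost nothing.

* `NodeFLStmt p` : the residual `Prop` (twin E6 `NodeProof`);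
* **`baseFLStmt_of_node`** : `NodeFLStmt p → BaseFLStmt p`;
* **`heckeFLStmt_of_node`** : `NodeFLStmt p → HeckeFLStmt p`.
-/
import Mathlib
import Fermat.Agent.GE.Engine.StepPlug
import Fermat.Agent.GE.Engine.FullLam
import Fermat.Agent.GE8.P3B.GE.Engine.BaseFL
import Fermat.Agent.GE8.P3B.Ok3W

set_option autoImplicit false
set_option linter.unusedSectionVars false
set_option linter.unusedVariables false
set_option linter.style.haveILetI false
set_option linter.dupNamespace false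

open scoped TensorProduct
open WeierstrassCurve WeierstrassCurve.Affine.Point IsLocalRing CuspForm Polynomial
open scoped WeierstrassCurve.Affine

namespace Fermat.Agent.GE8.P3B

namespace GE.Engine.FLPlug

open Fermat.Agent.GB.Setup.RhoBar Fermat.Agent.GB.Setup.SetupPkg
  Fermat.Agent.GB.B4.Datum.Carrier Fermat.Agent.GB.B4.Datum.HeckeCarrier
  Fermat.Agent.GE.Graph Fermat.Agent.GE9.Ind Fermat.Agent.GE9.NumCrit
  Fermat.Agent.GE9.NumCrit.ModForm Fermat.Agent.GE9.Asm
open Fermat.Agent.GJ.J2.Lat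
open Fermat.Agent.GE9.Eta Fermat.Agent.GE9.Eta.Mod Fermat.Agent.GE9.Eta.Base
  Fermat.Agent.GE9.Eta.Base.Primary
open Fermat.Agent.GE6.Inst.BaseTLoc

/-- **E6 at the minimal level, flat case, every odd `p`** (twin of `FLPlug.NodeFLStmt`; the relaxed
`p ≠ 3` is `Ok3W.of_semistable hW`). -/
def NodeFLStmt (p : ℕ) [hpF : Fact p.Prime] : Prop :=
  ∀ (W : WeierstrassCurve ℤ), W.Δ ≠ 0 → ∀ (hW : W.IsSemistableModel), W.ModRepIsIrreducible p →
    ∀ (hcard₁ : Nat.card (Submodule.torsionBy ℤ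
      ((W.map (Int.castRingHom ℚ))⁄(AlgebraicClosure ℚ)).Point p) = p ^ 2)
    (hker : GaloisFactorsThroughFiniteLevel
      (galoisRepModuleEnd (K := AlgebraicClosure ℚ) ℚ (W.map (Int.castRingHom ℚ)) p))
    (M : ℕ) [NeZero M], Squarefree M → ¬ p ∣ M → W.IsResiduallyModularOfLevel p M →
    (∀ q : ℕ, q.Prime → q ≠ p → q ∣ M →
      ¬ ((W.map (Int.castRingHom ℚ)).residualGaloisRepOf p hcard₁ hker).IsUnramifiedAt q) →
    ∃ A : ℕ, 1 ≤ A ∧ ∀ (P : Pkg p W hcard₁ hker M A)
      (D : GaloisRep.DeformationRingData P.O P.rhobar (condFL P.O p P.Smin ∅))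
      (H : HeckeGaloisRepDatum M (↑P.S0 : Set ℕ) P.O P.theta (Tloc P.O P.theta))
      (hπ : H.π = piT P.O P.theta)
      (φ : D.R →ₐ[P.O] Tloc P.O P.theta) (hφ : Function.Surjective φ)
      (hloc : IsLocalHom (φ : D.R →+* Tloc P.O P.theta))
      (hρ : (D.ρ.baseChangeAlong (φ : D.R →+* Tloc P.O P.theta) hloc).IsEquiv H.ρ)
      (eL : Fermat.Agent.GE8.P3B.GE6.Inst.FreeLevelInst.Mbase P ≃ₗ[P.O]
        Fermat.Agent.GE8.P3B.GE6.Inst.BaseTPkg.LTP P),
      (∀ (s : Fermat.Agent.GE8.P3B.GE6.Inst.FreeLevelInst.I0 W p M)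
          (y : Fermat.Agent.GE8.P3B.GE6.Inst.FreeLevelInst.Mbase P),
        eL (Fermat.Agent.GE8.P3B.GE6.Inst.FreeLevelInst.actBase P (MvPolynomial.X s) y)
          = piT P.O P.theta (heckeAlgebra.T s.2.1 s.2.2.2.1
              (Fermat.Agent.GE8.P3B.GE6.Inst.BaseTPkg.pr0_notMem_S0 P s)) • eL y) →
      Fermat.Agent.GE8.P3B.GE6.Inst.Wire.NodeStmt P (Ok3W.of_semistable hW)
        (condFL P.O p P.Smin) D φ (Fermat.Agent.GE8.P3B.GE6.Inst.BaseTPkg.LTP P) eL

/-- **the base of the flat engine from E6's node statement** (every odd `p`). -/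
theorem baseFLStmt_of_node (p : ℕ) [hpF : Fact p.Prime] (h : NodeFLStmt p) :
    Fermat.Agent.GE.Engine.BaseFLStmt p := by
  intro W hΔ hW hirr hcard₁ hker M _ hsq hpM hRM hmin
  obtain ⟨A, hA, hN⟩ := h W hΔ hW hirr hcard₁ hker M hsq hpM hRM hmin
  refine ⟨A, hA, fun P χ hχ => ?_⟩
  have hSu : P.Su = ∅ := Fermat.Agent.GE.Engine.su_eq_empty P hmin
  obtain ⟨lam, hlamχ, hfull⟩ := Fermat.Agent.GE.Engine.exists_full_lam P hpM hsq hSu χ hχ
  have hfull' : Fermat.Agent.GE8.P3B.GE.Engine.BaseFL.FullSys P lam := hfull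
  refine ⟨lam, hlamχ, ?_, fun D H hπ φ hφ hloc hρ πO hπO => ?_⟩
  · -- one instance `(D, H, φ, πO)` as in `Base.exists_base_of_datum`
    obtain ⟨H, hπ, h𝒟, hres⟩ := Fermat.Agent.GE8.MinDatum.exists_datum_condFL P hpM
      (fun q hqS _ => Fermat.Agent.GE8.MinDatum.not_sq_dvd_of_squarefree hsq
        (P.prime_of_mem_Smin hqS)) ∅
      (fun q hq hqM => Finset.mem_union_left _
        (Fermat.Agent.GE8.MinDatum.mem_Smin_of_dvd P hSu hq hqM))
    obtain ⟨D⟩ := Fermat.Agent.GE6.DefRing.nonempty_defRing_FL p P.rhobar P.hp2 P.habs P.Smin ∅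
      P.p_mem_Smin P.hmin (Fermat.Agent.GE8.MinDatum.hbar_condFL P hpM hsq ∅)
    obtain ⟨φ, hsurj, hloc, hρ⟩ := Fermat.Agent.GE8.MinDatum.surjective_to_hecke P D H h𝒟 hres
    obtain ⟨πO, hψ⟩ := H.exists_point χ hχ
    have hπO : ∀ t : heckeAlgebra M 2 (↑P.S0 : Set ℕ), πO (piT P.O P.theta t) = χ t := by
      intro t
      rw [← hπ]
      exact hψ t
    obtain ⟨I, -, hst⟩ := Fermat.Agent.GE8.P3B.GE.Engine.BaseFL.baseInput_of_node P hpM hsq
      (Ok3W.of_semistable hW) χ lam hlamχ hfull' D φ hsurj πO hπO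
      (fun eL heL => hN P D H hπ φ hsurj hloc hρ eL heL)
    exact hst
  · obtain ⟨I, hI, -⟩ := Fermat.Agent.GE8.P3B.GE.Engine.BaseFL.baseInput_of_node P hpM hsq
      (Ok3W.of_semistable hW) χ lam hlamχ hfull' D φ hφ πO hπO
      (fun eL heL => hN P D H hπ φ hφ hloc hρ eL heL)
    exact ⟨I, hI⟩

/-- **the flat Hecke side (without goodness of `W` at `p`) from E6's node statement.** -/
theorem heckeFLStmt'_of_node (p : ℕ) [hpF : Fact p.Prime] (h : NodeFLStmt p) :
    Fermat.Agent.GE.Engine.HeckeFLStmt' p :=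
  Fermat.Agent.GE.Engine.heckeFLStmt'_of_base p (baseFLStmt_of_node p h)

/-- **`Top.HeckeFLStmt p` from E6's node statement** (every odd `p`). -/
theorem heckeFLStmt_of_node (p : ℕ) [hpF : Fact p.Prime] (h : NodeFLStmt p) :
    Fermat.Agent.GE.Engine.HeckeFLStmt p :=
  Fermat.Agent.GE.Engine.heckeFLStmt_of_base p (baseFLStmt_of_node p h)

end GE.Engine.FLPlug

end Fermat.Agent.GE8.P3B
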