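/-
GATE-E / GE-ENGINE-ASM, RISK-4 (B-iii), layer 2 (helper60; assignment helper80 board 7985 / 8040):
**the body of `SObInst.BaseSObStmt` at a bundle**, from ONE binder — the record on the `p`-new level
at every Taylor–Wiles set (`NodeNew.NewRecordStmt` at helper15's fixed base maps, helper55 board 8056).

`P` a bundle of the level `M p` (`p ∤ M`, `M p` squarefree, `P.Su = ∅`), `χg` a `p`-new modular point
(it lifts `θ̄` and kills the annihilator of `LamNew`).  Then there is a full eigensystem `lam`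
extending `χg` with `lam p ^ 2 = 1`, `EtaStageNew hpM P.O lam 2` and
`BaseSupplySOb P χg (omegaCardNew hpM P.O lam) 2`.

Suppliers (all landed):
* `(lam, hlamχ, hu, y₁)` : helper32 `FullLamPNew.exists_full_lam_pnew_of_kills`;
* carrier `T' := ImageRing.TQ P.O P.theta (twK …)` on the `Lam`-model `↥(KLoc hpM (Zof P) lam)`,
  `π' := chi`, `πO' := pointK`, `hgen`, `hann`, `hη`, generators `gK` : helper3 `KStageTQ`;
* the `Hom`-model `(f1, f2)` with `hf0` : helper15 `G1/PairBase`, helper4 `Hf0Pkg`;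
* the comparison `eK` : helper19 `BaseKer/EquivKPkg.exists_eK_pkg`;
* `hbad` : `FullLamSOa.nonOccAt_of_min_ne` (`ρ̄` ramified at the primes `≠ p` of the level);
* the node : helper55 `NodeNew.newSideStmt_of_recordStmt` with the module structure transported along
  `eK` (helper57 `TransportMod`), `t₀ := tNatB chi`, and the base compatibility `hbase₀`
  proved HERE from the equivariance clause of `eK`;
* the assembly : `BaseSOb.baseSupplySOb_of_node` (layer 1).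
-/
import Mathlib
import Fermat.Agent.GE.Engine.BaseSOb
import Fermat.Agent.GE.Engine.FullLamPNew
import Fermat.Agent.GE9.PNew.Inst.KStageTQ
import Fermat.Agent.GE8.P3B.GE8.RaiseP.Hf0Pkg
import Fermat.Agent.GE8.P3B.GE8.RaiseP.BaseKer.EquivKPkg
import Fermat.Agent.GE8.P3B.GE8.RaiseP.NodeNew
import Fermat.Agent.GE8.P3B.StepGen
import Fermat.Agent.GE8.P3B.Ok3W

/- TWIN (helper6 B4 generator; conventions of helper24 / helper86) of `Fermat.Agent.GE.Engine.BaseSObPkg` with `p ≠ 3` relaxed to `Ok3A Sy 𝔪 p` / `Ok3W p W` (RISK-5 fix (B), step B4); everything below lives in the wrapper namespace `Fermat.Agent.GE8.P3B`. -/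
set_option linter.dupNamespace false
open Fermat Fermat.Agent Fermat.Agent.GB Fermat.Agent.GB.B10 Fermat.Agent.GB.B10.KumLevelHecke Fermat.Agent.GB.B10.L Fermat.Agent.GB.B10.L.ThetaNew Fermat.Agent.GB.B4 Fermat.Agent.GB.B4.Datum Fermat.Agent.GB.B4.Datum.Carrier Fermat.Agent.GB.B4.Datum.HeckeCarrier Fermat.Agent.GB.B4.Datum.ImageRing Fermat.Agent.GB.Setup Fermat.Agent.GB.Setup.RhoBar Fermat.Agent.GB.Setup.SetupPkg Fermat.Agent.GE Fermat.Agent.GE.Engine Fermat.Agent.GE.Engine.BaseSOb Fermat.Agent.GE.Graph Fermat.Agent.GE6 Fermat.Agent.GE6.Inst Fermat.Agent.GE8 Fermat.Agent.GE8.RaiseP Fermat.Agent.GE8.RaiseP.BaseB Fermat.Agent.GE8.RaiseP.BaseKer Fermat.Agent.GE8.RaiseP.G1 Fermat.Agent.GE8.RaiseP.TransportMod Fermat.Agent.GE9 Fermat.Agent.GE9.Asm Fermat.Agent.GE9.Eta Fermat.Agent.GE9.Eta.Base Fermat.Agent.GE9.Eta.Mod Fermat.Agent.GE9.Ind Fermat.Agent.GE9.Mult1 Fermat.Agent.GE9.NumCrit Fermat.Agent.GE9.NumCrit.ModForm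 Fermat.Agent.GE9.OldQ Fermat.Agent.GE9.OldQ.Consumer Fermat.Agent.GE9.PNew Fermat.Agent.GE9.PNew.CarrierExp Fermat.Agent.GE9.PNew.Inst Fermat.Agent.GE9.PNew.Inst.BaseNewFields Fermat.Agent.GE9.PNew.Inst.KStageTQ Fermat.Agent.GJ Fermat.Agent.GJ.J2 Fermat.Agent.GJ.J2.Lat Fermat.Agent.GJ.J2.LatAct Fermat.Agent.GK Fermat.Agent.GK.AL

namespace Fermat.Agent.GE8.P3B

set_option autoImplicit false
set_option linter.unusedSectionVars false
set_option linter.unusedVariables false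
set_option linter.style.haveILetI false
set_option maxSynthPendingDepth 3

open scoped TensorProduct
open WeierstrassCurve WeierstrassCurve.Affine.Point IsLocalRing CuspForm Polynomial
open scoped WeierstrassCurve.Affine

namespace GE.Engine.BaseSObPkg

open GB.Setup.RhoBar GB.Setup.SetupPkg
  GB.B4.Datum.Carrier GB.B4.Datum.HeckeCarrier
  GB.B4.Datum.ImageRing
  GE.Graph GE9.Ind GE9.NumCrit
  GE9.NumCrit.ModForm GE9.Asm
open GJ.J2.Lat GJ.J2.LatAct
open GE9.Mult1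
open GE9.Eta GE9.Eta.Mod GE9.Eta.Base
open GE9.PNew.CarrierExp
open GE9.PNew.Inst GE9.PNew.Inst.BaseNewFields
  GE9.PNew.Inst.KStageTQ
open GE9.OldQ.Consumer
open GK.AL
open GB.B10.KumLevelHecke GB.B10.L.ThetaNew
open GE6.Inst.FreeLevelInst GE6.Inst.BaseTPkg
open GE8.RaiseP.BaseB GE8.RaiseP.NodeNew
open GE8.RaiseP.G1.PairBase GE8.RaiseP.Hf0Pair
  GE8.RaiseP.Hf0Pkg GE8.RaiseP.BaseKer.EquivKPkg
open GE8.RaiseP.TransportMod
open GE.Engine GE.Engine.BaseSOb

variable {p : ℕ} [hpF : Fact p.Prime] {W : WeierstrassCurve ℤ}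
  {hcard₁ : Nat.card (Submodule.torsionBy ℤ
    ((W.map (Int.castRingHom ℚ))⁄(AlgebraicClosure ℚ)).Point p) = p ^ 2}
  {hker : GaloisFactorsThroughFiniteLevel
    (galoisRepModuleEnd (K := AlgebraicClosure ℚ) ℚ (W.map (Int.castRingHom ℚ)) p)}
  {M A : ℕ} (P : Pkg p W hcard₁ hker (M * p) A) [NeZero M] [NeZero (M * p)]

/-- the `ℕ`-indexed Hecke elements `t ℓ = tw' (T_ℓ)` (`0` at the bad `ℓ`); a local copy of
`GE8/RaiseP/RecordNew.tNat` (that file is not imported: it sits above the heavy `UnitTwE`). -/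
noncomputable def tNatB {N : ℕ} [NeZero N] {S : Finset ℕ} {T' : Type} [CommRing T']
    (tw' : heckeAlgebra N 2 (↑S : Set ℕ) →+* T') (ℓ : ℕ) : T' :=
  open Classical in
  if h : ℓ.Prime ∧ ¬ ℓ ∣ N ∧ ℓ ∉ (↑S : Set ℕ) then tw' (heckeAlgebra.T h.1 h.2.1 h.2.2) else 0

theorem tNatB_eq {N : ℕ} [NeZero N] {S : Finset ℕ} {T' : Type} [CommRing T']
    (tw' : heckeAlgebra N 2 (↑S : Set ℕ) →+* T') {ℓ : ℕ} (hℓ : ℓ.Prime)
    (hℓN : ¬ ℓ ∣ N) (hℓS : ℓ ∉ (↑S : Set ℕ)) :
    tNatB tw' ℓ = tw' (heckeAlgebra.T hℓ hℓN hℓS) := dif_pos ⟨hℓ, hℓN, hℓS⟩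

/-- the good Hecke operators preserve the kernel of helper15's fixed pair. -/
theorem actBF_mem_ker (hpM : ¬ p ∣ M) (t : MvPolynomial (I0 W p (M * p)) P.O)
    (y : ↥(LinearMap.ker
      ((f1 P.O (pr0 W p (M * p)) (pr0_prime W p (M * p)) p (pr0_ne_p (M * p)) M hpM (lam0 P)).prod
        (f2 P.O (pr0 W p (M * p)) (pr0_prime W p (M * p)) p (pr0_ne_p (M * p)) M hpM (lam0 P))))) :
    actBF P.O (pr0 W p (M * p)) (pr0_prime W p (M * p)) p M (lam0 P) t
        (y : baseF P.O (pr0 W p (M * p)) (pr0_prime W p (M * p)) p M (lam0 P))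
      ∈ LinearMap.ker
        ((f1 P.O (pr0 W p (M * p)) (pr0_prime W p (M * p)) p (pr0_ne_p (M * p)) M hpM (lam0 P)).prod
          (f2 P.O (pr0 W p (M * p)) (pr0_prime W p (M * p)) p (pr0_ne_p (M * p)) M hpM
            (lam0 P))) := by
  have hy := y.2
  rw [LinearMap.mem_ker] at hy ⊢
  have hy1 := congrArg Prod.fst hy
  have hy2 := congrArg Prod.snd hy
  rw [LinearMap.prod_apply] at hy1 hy2
  refine Prod.ext ?_ ?_
  · show f1 P.O (pr0 W p (M * p)) (pr0_prime W p (M * p)) p (pr0_ne_p (M * p)) M hpM (lam0 P)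
      (actBF P.O (pr0 W p (M * p)) (pr0_prime W p (M * p)) p M (lam0 P) t
        (y : baseF P.O (pr0 W p (M * p)) (pr0_prime W p (M * p)) p M (lam0 P))) = 0
    rw [f1_act]
    exact (congrArg _ hy1).trans (map_zero _)
  · show f2 P.O (pr0 W p (M * p)) (pr0_prime W p (M * p)) p (pr0_ne_p (M * p)) M hpM (lam0 P)
      (actBF P.O (pr0 W p (M * p)) (pr0_prime W p (M * p)) p M (lam0 P) t
        (y : baseF P.O (pr0 W p (M * p)) (pr0_prime W p (M * p)) p M (lam0 P))) = 0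
    rw [f2_act]
    exact (congrArg _ hy2).trans (map_zero _)

/-- **(B-iii), layer 2: the body of `BaseSObStmt` at a bundle**, from the record on the `p`-new level
at every Taylor–Wiles set. -/
theorem baseSOb_of_record (hss : W.IsSemistableModel) (hmult : (p : ℤ) ∣ W.Δ)
    (hpM : ¬ p ∣ M) (hsq : Squarefree (M * p)) (hSu : P.Su = ∅)
    (χg : heckeAlgebra (M * p) 2 (↑P.S0 : Set ℕ) →+* P.O)
    (hχg : ∀ t : heckeAlgebra (M * p) 2 (↑P.S0 : Set ℕ), residue P.O (χg t) = P.theta t)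
    (hkill : ∀ t : heckeAlgebra (M * p) 2 (↑P.S0 : Set ℕ),
      (∀ x ∈ (LamNew hpM : AddSubgroup (Lam (M * p))),
        latAct (M * p) (↑P.S0 : Set ℕ) t x = 0) → χg t = 0)
    (hrec : Nontrivial ↥(LinearMap.ker
        ((f1 P.O (pr0 W p (M * p)) (pr0_prime W p (M * p)) p (pr0_ne_p (M * p)) M hpM
            (lam0 P)).prod
          (f2 P.O (pr0 W p (M * p)) (pr0_prime W p (M * p)) p (pr0_ne_p (M * p)) M hpM
            (lam0 P)))) →
      ∀ (D : GaloisRep.DeformationRingData P.O P.rhobar (condSO P.O p P.Smin ∅))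
      {T' : Type} [CommRing T']
      [Module T' ↥(LinearMap.ker
        ((f1 P.O (pr0 W p (M * p)) (pr0_prime W p (M * p)) p (pr0_ne_p (M * p)) M hpM
            (lam0 P)).prod
          (f2 P.O (pr0 W p (M * p)) (pr0_prime W p (M * p)) p (pr0_ne_p (M * p)) M hpM
            (lam0 P))))]
      (t₀ : ℕ → T'),
      (∀ (s : I0 W p (M * p)) (y : ↥(LinearMap.ker
          ((f1 P.O (pr0 W p (M * p)) (pr0_prime W p (M * p)) p (pr0_ne_p (M * p)) M hpM
              (lam0 P)).prod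
            (f2 P.O (pr0 W p (M * p)) (pr0_prime W p (M * p)) p (pr0_ne_p (M * p)) M hpM
              (lam0 P))))),
        actBF P.O (pr0 W p (M * p)) (pr0_prime W p (M * p)) p M (lam0 P) (MvPolynomial.X s)
            (y : baseF P.O (pr0 W p (M * p)) (pr0_prime W p (M * p)) p M (lam0 P))
          = ((t₀ (pr0 W p (M * p) s) • y : ↥(LinearMap.ker _)) :
              baseF P.O (pr0 W p (M * p)) (pr0_prime W p (M * p)) p M (lam0 P))) →
      NewRecordStmt p (Fact.out : p.Prime) P.hpO P.S0 (condSO P.O p P.Smin) D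
        (baseF P.O (pr0 W p (M * p)) (pr0_prime W p (M * p)) p M (lam0 P))
        (baseG P.O (pr0 W p (M * p)) (pr0_prime W p (M * p)) M (lam0 P))
        (f1 P.O (pr0 W p (M * p)) (pr0_prime W p (M * p)) p (pr0_ne_p (M * p)) M hpM (lam0 P))
        (f2 P.O (pr0 W p (M * p)) (pr0_prime W p (M * p)) p (pr0_ne_p (M * p)) M hpM (lam0 P))
        (surjective_f1_f2_pkg P hpM hsq) t₀) :
    ∃ lam : Nat.Primes → P.O,
      (∀ (ℓ : ℕ) (hℓ : ℓ.Prime) (hℓM : ¬ ℓ ∣ M * p) (hℓS : ℓ ∉ (↑P.S0 : Set ℕ)),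
        χg (heckeAlgebra.T hℓ hℓM hℓS) = lam (⟨ℓ, hℓ⟩ : Nat.Primes)) ∧
      lam (⟨p, Fact.out⟩ : Nat.Primes) ^ 2 = 1 ∧
      EtaStageNew hpM P.O lam 2 ∧
      BaseSupplySOb P χg (omegaCardNew hpM P.O lam) 2 := by
  classical
  have hp : p.Prime := Fact.out
  obtain ⟨lam, hlamχ, hfull, hu, hle, y₁, hy₁0, hy₁⟩ :=
    GE.Engine.FullLamPNew.exists_full_lam_pnew_of_kills P hpM hsq hSu χg hχg hkill
  refine ⟨lam, hlamχ, hu, ?_⟩
  -- the sets of primes
  have hMS : ∀ r : ℕ, r.Prime → r ∣ M * p → r ∈ (↑P.S0 : Set ℕ) :=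
    fun r hr h => Finset.mem_coe.mpr (GE8.MinDatum.hNS0 P r hr h)
  have hZS : ∀ l : ℕ, l.Prime → l ∉ (↑P.S0 : Set ℕ) → l ∈ Zof P := fun l _ h => h
  have hr : BetaPEquiv hpM (Zof P) :=
    betaPEquiv_of_good hpM (fun l hl h => hl (hMS l l.2 h))
  have hxK : y₁ ∈ KNew hpM P.O := hle hy₁
  -- the carrier of the stage module
  haveI hloc : Fact (LocHyp P.O P.theta (twK hpM hZS hr lam)) :=
    ⟨locHyp_twK_of_chi hpM hMS hZS hr P.theta hy₁ hy₁0 χg hlamχ hχg⟩
  haveI : Module.Finite P.O ↥(KLoc hpM (Zof P) lam) := finite_KLoc hpM (Zof P) lam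
  haveI : Module.Free P.O ↥(KLoc hpM (Zof P) lam) := free_KLoc hpM (Zof P) lam
  haveI : Nontrivial ↥(KLoc hpM (Zof P) lam) := nontrivial_KLoc hpM hy₁ hy₁0 hxK
  letI modL : Module (TQ P.O P.theta (twK hpM hZS hr lam)) ↥(KLoc hpM (Zof P) lam) :=
    moduleTQ P.O P.theta (twK hpM hZS hr lam)
  haveI : IsScalarTower P.O (TQ P.O P.theta (twK hpM hZS hr lam)) ↥(KLoc hpM (Zof P) lam) :=
    isScalarTower_TQ P.O P.theta (twK hpM hZS hr lam)
  -- the `Hom`-model and the comparison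
  have hf0 := surjective_f1_f2_pkg P hpM hsq
  obtain ⟨eK, -, heK⟩ := exists_eK_pkg P hpM hsq lam
    (residue_lam_of_point P χg hχg lam hlamχ)
    (f1 P.O (pr0 W p (M * p)) (pr0_prime W p (M * p)) p (pr0_ne_p (M * p)) M hpM (lam0 P))
    (f2 P.O (pr0 W p (M * p)) (pr0_prime W p (M * p)) p (pr0_ne_p (M * p)) M hpM (lam0 P))
    (coe_f1_eq (pr0 W p (M * p)) (pr0_prime W p (M * p)) p (pr0_ne_p (M * p)) M hpM (lam0 P))
    (coe_f2_eq (pr0 W p (M * p)) (pr0_prime W p (M * p)) p (pr0_ne_p (M * p)) M hpM (lam0 P))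
  -- the types of the bad primes `≠ p`
  have hcong : ∀ l : Nat.Primes, (l : ℕ) ∉ P.S0 → W.IsGoodPrimeFor l → (l : ℕ) ≠ p →
      lam l - ((W.apOfModel l : ℤ) : P.O) ∈ IsLocalRing.maximalIdeal P.O := by
    intro l hlS hgood hlp
    have hlS' : (l : ℕ) ∉ (↑P.S0 : Set ℕ) := fun h => hlS (Finset.mem_coe.mp h)
    have hlM : ¬ (l : ℕ) ∣ M * p := (P.good_of_notMem_S0 l.2 hlS').2.1
    have h1 : lam l = χg (heckeAlgebra.T l.2 hlM hlS') := (hlamχ l l.2 hlM hlS').symm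
    rw [← residue_eq_zero_iff, map_sub, map_intCast, sub_eq_zero, h1, hχg,
      P.theta_T l.2 hlM hlS']
  have hbad : ∀ b : Nat.Primes, (b : ℕ) ∈ P.S0 → (b : ℕ) ≠ p →
      ¬ (b : ℕ) ∣ M ∨ ((b : ℕ) ∣ M ∧ ¬ (b : ℕ) ^ 2 ∣ M ∧ NonOccAt P.O P.S0 b lam) := by
    intro b _ hbp
    by_cases hb : (b : ℕ) ∣ M
    · exact Or.inr ⟨hb,
        GE8.MinDatum.not_sq_dvd_of_squarefree (Squarefree.of_mul_left hsq) b.2,
        GE.Engine.FullLamSOa.nonOccAt_of_min_ne P hSu P.S0 lam hcong b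
          (Dvd.dvd.mul_right hb p) hbp⟩
    · exact Or.inl hb
  -- the node
  have hnode : ∀ (D : GaloisRep.DeformationRingData P.O P.rhobar (condSO P.O p P.Smin ∅))
      (φ : D.R →ₐ[P.O] TQ P.O P.theta (twK hpM hZS hr lam))
      (φ_local : IsLocalHom (φ : D.R →+* TQ P.O P.theta (twK hpM hZS hr lam)))
      (ρT' : GaloisRepAdic (TQ P.O P.theta (twK hpM hZS hr lam))),
      Function.Surjective φ →
      (D.ρ.baseChangeAlong (φ : D.R →+* TQ P.O P.theta (twK hpM hZS hr lam)) φ_local).IsEquiv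
        ρT' →
      (∀ (q : ℕ) (hq : q.Prime) (hqN : ¬ q ∣ M * p) (hqS : q ∉ (↑P.S0 : Set ℕ)),
        ∀ B : ValuationSubring (AlgebraicClosure ℚ), B.LiesOverPrime q →
          ∀ σ : AlgebraicClosure ℚ ≃ₐ[ℚ] AlgebraicClosure ℚ, B.IsFrobeniusAt σ q →
            LinearMap.charpoly (ρT'.ρ σ) =
              X ^ 2 - C (chi P.O P.theta (twK hpM hZS hr lam) (heckeAlgebra.T hq hqN hqS)) * X
                + C ((q : TQ P.O P.theta (twK hpM hZS hr lam)))) →
      letI := modOfEquiv (T := TQ P.O P.theta (twK hpM hZS hr lam)) eK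
      NewSideStmt p (Fact.out : p.Prime) P.hpO P.S0 (condSO P.O p P.Smin) D φ
        (baseF P.O (pr0 W p (M * p)) (pr0_prime W p (M * p)) p M (lam0 P))
        (baseG P.O (pr0 W p (M * p)) (pr0_prime W p (M * p)) M (lam0 P))
        (f1 P.O (pr0 W p (M * p)) (pr0_prime W p (M * p)) p (pr0_ne_p (M * p)) M hpM (lam0 P))
        (f2 P.O (pr0 W p (M * p)) (pr0_prime W p (M * p)) p (pr0_ne_p (M * p)) M hpM (lam0 P))
        hf0 := by
    intro D φ φ_local ρT' hφ he hcp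
    letI modK := modOfEquiv (T := TQ P.O P.theta (twK hpM hZS hr lam)) eK
    haveI towK := isScalarTower (T := TQ P.O P.theta (twK hpM hZS hr lam)) eK
    -- faithfulness
    have hfaith : ∀ u : TQ P.O P.theta (twK hpM hZS hr lam),
        (∀ y : ↥(LinearMap.ker
          ((f1 P.O (pr0 W p (M * p)) (pr0_prime W p (M * p)) p (pr0_ne_p (M * p)) M hpM
              (lam0 P)).prod
            (f2 P.O (pr0 W p (M * p)) (pr0_prime W p (M * p)) p (pr0_ne_p (M * p)) M hpM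
              (lam0 P)))), u • y = 0) → u = 0 :=
      fun u hu => faithful (T := TQ P.O P.theta (twK hpM hZS hr lam)) eK
        (fun u' hu' => eq_zero_of_forall_smul_eq_zero P.O P.theta (twK hpM hZS hr lam) u' hu')
        u hu
    -- Eichler–Shimura in the `ℕ`-indexed spelling
    have h0 : ∀ ℓ : ℕ, ℓ.Prime → ℓ ∉ P.S0 →
        ∀ Pℓ : ValuationSubring (AlgebraicClosure ℚ), Pℓ.LiesOverPrime ℓ →
          ∀ σ : AlgebraicClosure ℚ ≃ₐ[ℚ] AlgebraicClosure ℚ, Pℓ.IsFrobeniusAt σ ℓ →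
            LinearMap.charpoly (ρT'.ρ σ) =
              X ^ 2 - C (tNatB (chi P.O P.theta (twK hpM hZS hr lam)) ℓ) * X
                + C ((ℓ : ℕ) : TQ P.O P.theta (twK hpM hZS hr lam)) := by
      intro ℓ hℓ hℓS Pℓ hPℓ σ hσ
      have hℓS' : ℓ ∉ (↑P.S0 : Set ℕ) := fun h => hℓS (Finset.mem_coe.mp h)
      have hℓN : ¬ ℓ ∣ M * p := fun h => hℓS' (hMS ℓ hℓ h)
      rw [tNatB_eq _ hℓ hℓN hℓS']
      exact hcp ℓ hℓ hℓN hℓS' Pℓ hPℓ σ hσ
    -- the base compatibility of the good symbols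
    have hbase₀ : ∀ (s : I0 W p (M * p)) (y : ↥(LinearMap.ker
        ((f1 P.O (pr0 W p (M * p)) (pr0_prime W p (M * p)) p (pr0_ne_p (M * p)) M hpM
            (lam0 P)).prod
          (f2 P.O (pr0 W p (M * p)) (pr0_prime W p (M * p)) p (pr0_ne_p (M * p)) M hpM
            (lam0 P))))),
        actBF P.O (pr0 W p (M * p)) (pr0_prime W p (M * p)) p M (lam0 P) (MvPolynomial.X s)
            (y : baseF P.O (pr0 W p (M * p)) (pr0_prime W p (M * p)) p M (lam0 P))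
          = ((tNatB (chi P.O P.theta (twK hpM hZS hr lam)) (pr0 W p (M * p) s) • y :
              ↥(LinearMap.ker _)) :
              baseF P.O (pr0 W p (M * p)) (pr0_prime W p (M * p)) p M (lam0 P)) := by
      intro s y
      -- the element `z := T_s y` of the kernel
      set z : ↥(LinearMap.ker
          ((f1 P.O (pr0 W p (M * p)) (pr0_prime W p (M * p)) p (pr0_ne_p (M * p)) M hpM
              (lam0 P)).prod
            (f2 P.O (pr0 W p (M * p)) (pr0_prime W p (M * p)) p (pr0_ne_p (M * p)) M hpM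
              (lam0 P)))) :=
        ⟨_, actBF_mem_ker P hpM (MvPolynomial.X s) y⟩ with hz
      have hk : (pr0 W p (M * p) s) ∉ (↑P.S0 : Set ℕ) := pr0_notMem_S0 P s
      have h1 := heK s y z rfl
      have h2 : eK z = tNatB (chi P.O P.theta (twK hpM hZS hr lam)) (pr0 W p (M * p) s) • eK y := by
        apply Subtype.ext
        rw [h1, tNatB_eq (ℓ := pr0 W p (M * p) s) _ (pr0_prime W p (M * p) s) s.2.2.2.1 hk]
        exact (gK_smul hpM hMS hZS hr lam P.theta ⟨⟨s.1, s.2.1⟩, hk⟩ (eK y)).symm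
      have h3 : z = tNatB (chi P.O P.theta (twK hpM hZS hr lam)) (pr0 W p (M * p) s) • y := by
        rw [smul_def, ← h2, LinearEquiv.symm_apply_apply]
      rw [← h3]
    exact newSideStmt_of_recordStmt hp P.hpO P.S0 (condSO P.O p P.Smin)
      (fun Sig => GB.Def.Cond.isDeformationCondition_SO P.O p P.hp2
        (P.Smin ∪ Sig) P.Smin)
      D φ inferInstance residue_comp_algebraMap_surjective φ_local ρT' he P.S0
      (tNatB (chi P.O P.theta (twK hpM hZS hr lam))) h0 _ _ hf0 hfaith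
      (hrec eK.toEquiv.nontrivial D (tNatB (chi P.O P.theta (twK hpM hZS hr lam))) hbase₀)
  -- the assembly (layer 1)
  have hmain := baseSupplySOb_of_node P hss hmult hpM hsq hSu χg hχg
    (T' := TQ P.O P.theta (twK hpM hZS hr lam))
    (chi P.O P.theta (twK hpM hZS hr lam)) (pointK hpM hZS hr P.theta hy₁ hy₁0 hxK)
    (adjoin_range_chi P.O P.theta (twK hpM hZS hr lam))
    (fun h hpS hNS => hann_KLoc hpM hr lam hpS hNS hZS P.theta)
    (fun t => by rw [pointK_chi, chiK_eq_of_T hMS hy₁ hy₁0 χg hlamχ])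
    (etaIdeal_pointK_ne_bot hpM hMS hZS hr P.theta hy₁ hy₁0 hxK)
    (Zof P) lam hr (gK hpM hMS hZS hr lam P.theta) (adjoin_gK hpM hMS hZS hr lam P.theta)
    (fun k => k.1) (fun k => k.2) (gK_smul hpM hMS hZS hr lam P.theta)
    (pointK_gK hpM hMS hZS hr P.theta hy₁ hy₁0 hxK) P.S0
    (fun l hl => ⟨⟨l, fun h => hl (Finset.mem_coe.mp h)⟩, rfl⟩)
    y₁ hy₁0 (fun l => mem_eigenTensorO.mp hy₁ l) hu hbad _ _ hf0 eK hnode
  exact ⟨hmain.2, hmain.1⟩

end GE.Engine.BaseSObPkg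

end Fermat.Agent.GE8.P3B
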